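import Mathlib

/-!
# Reductions mod `p` of integral representations with equal characters

`Γ` is a finite group, `p` a prime, `F` a `ℤ`-valued function on finite `ℤ[Γ]`-modules killed by
`p` which is additive on short exact sequences (`IsAdditive p F`).  The main result of this file is

* `IsAdditive.red_eq_of_trace_eq` : if `L₁`, `L₂` are `Γ`-lattices (finitely generated torsion-free
  `ℤ`-modules with a `ℤ`-linear `Γ`-action) with the same character, then
  `F (L₁ / p L₁) = F (L₂ / p L₂)`.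

This is the statement "the decomposition map is well defined" (Brauer–Nesbitt), proved without
semisimplicity or Brauer characters:

* `IsAdditive.red_eq_of_step` : lattices related by `Γ`-maps `ι`, `κ` with `ι κ = κ ι = ℓ` (`ℓ`
  prime) have the same `F (L / p L)`;
* `IsAdditive.red_eq_of_exponent` : hence so do a lattice and a `Γ`-sublattice of finite index;
* `exists_equivariant_ne_zero` : lattices with equal characters have a nonzero `Γ`-map between them (trace of
  the norm operator on `Hom_ℤ(L₁, L₂)`);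
* an induction on the rank, splitting off the kernel of such a map and the saturation of its image.
-/

set_option autoImplicit false

namespace Fermat.Agent.Lib.RepInd

open Module

/-- `ℤ`-valued functions on integral representations of `Γ`. -/
abbrev IntRepFun (Γ : Type) [Group Γ] : Type 1 :=
  ∀ (W : Type) [AddCommGroup W], Representation ℤ Γ W → ℤ

variable {Γ : Type} [Group Γ]

/-- Additivity of `F` on short exact sequences of finite `ℤ[Γ]`-modules killed by `p`. -/
def IsAdditive (p : ℕ) (F : IntRepFun Γ) : Prop :=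
  ∀ (A B C : Type) [AddCommGroup A] [AddCommGroup B] [AddCommGroup C]
    (ρA : Representation ℤ Γ A) (ρB : Representation ℤ Γ B) (ρC : Representation ℤ Γ C)
    (i : A →ₗ[ℤ] B) (q : B →ₗ[ℤ] C), Finite B → (∀ b : B, p • b = 0) →
    Function.Injective i → Function.Surjective q → Function.Exact i q →
    (∀ g a, i (ρA g a) = ρB g (i a)) → (∀ g b, q (ρB g b) = ρC g (q b)) →
    F B ρB = F A ρA + F C ρC

section Additive

variable {p : ℕ} {F : IntRepFun Γ}

theorem IsAdditive.eq_zero_of_subsingleton (hF : IsAdditive p F)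
    (C : Type) [AddCommGroup C] [Subsingleton C] (ρ : Representation ℤ Γ C) : F C ρ = 0 := by
  have h := hF C C C ρ ρ ρ LinearMap.id 0 inferInstance (fun b => Subsingleton.elim _ _)
    Function.injective_id (fun c => ⟨0, Subsingleton.elim _ _⟩)
    (fun b => ⟨fun _ => ⟨b, rfl⟩, fun _ => Subsingleton.elim _ _⟩) (fun g a => rfl)
    (fun g b => Subsingleton.elim _ _)
  linarith

/-- An additive function is invariant under equivariant isomorphisms. -/
theorem IsAdditive.eq_of_bijective (hF : IsAdditive p F)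
    {A B : Type} [AddCommGroup A] [AddCommGroup B] (ρA : Representation ℤ Γ A)
    (ρB : Representation ℤ Γ B) (e : A →ₗ[ℤ] B) (he : Function.Bijective e)
    [Finite B] (hp : ∀ b : B, p • b = 0) (hcomm : ∀ g a, e (ρA g a) = ρB g (e a)) :
    F A ρA = F B ρB := by
  have h := hF A B PUnit ρA ρB 1 e 0 inferInstance hp he.1
    (fun c => ⟨0, Subsingleton.elim _ _⟩)
    (fun b => ⟨fun _ => he.2 b, fun _ => rfl⟩) hcomm (fun g b => Subsingleton.elim _ _)
  rw [h, hF.eq_zero_of_subsingleton PUnit 1, add_zero]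

/-- The value of `F` on an invariant submodule. -/
noncomputable def subF (F : IntRepFun Γ) {V : Type} [AddCommGroup V] (ρ : Representation ℤ Γ V)
    (U : Submodule ℤ V) (hU : ∀ g, U ≤ U.comap (ρ g)) : ℤ :=
  F U (ρ.subrepresentation U hU)

theorem subF_congr (F : IntRepFun Γ) {V : Type} [AddCommGroup V] (ρ : Representation ℤ Γ V)
    {U U' : Submodule ℤ V} (h : U = U') (hU : ∀ g, U ≤ U.comap (ρ g))
    (hU' : ∀ g, U' ≤ U'.comap (ρ g)) : subF F ρ U hU = subF F ρ U' hU' := by
  subst h
  rfl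

theorem ker_le_comap {V W : Type} [AddCommGroup V] [AddCommGroup W] (ρ : Representation ℤ Γ V)
    (σ : Representation ℤ Γ W) (f : V →ₗ[ℤ] W) (hf : ∀ g v, f (ρ g v) = σ g (f v)) (g : Γ) :
    LinearMap.ker f ≤ (LinearMap.ker f).comap (ρ g) := by
  intro v hv
  rw [Submodule.mem_comap, LinearMap.mem_ker, hf, LinearMap.mem_ker.mp hv, map_zero]

theorem range_le_comap {V W : Type} [AddCommGroup V] [AddCommGroup W] (ρ : Representation ℤ Γ V)
    (σ : Representation ℤ Γ W) (f : V →ₗ[ℤ] W) (hf : ∀ g v, f (ρ g v) = σ g (f v)) (g : Γ) :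
    LinearMap.range f ≤ (LinearMap.range f).comap (σ g) := by
  rintro w ⟨v, rfl⟩
  exact ⟨ρ g v, hf g v⟩

/-- Rank–nullity for an additive function. -/
theorem IsAdditive.eq_ker_add_range (hF : IsAdditive p F)
    {V W : Type} [AddCommGroup V] [AddCommGroup W] (ρ : Representation ℤ Γ V)
    (σ : Representation ℤ Γ W) (f : V →ₗ[ℤ] W) [Finite V] (hp : ∀ v : V, p • v = 0)
    (hf : ∀ g v, f (ρ g v) = σ g (f v)) :
    F V ρ = subF F ρ (LinearMap.ker f) (ker_le_comap ρ σ f hf) +
      subF F σ (LinearMap.range f) (range_le_comap ρ σ f hf) := by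
  refine hF _ V _ _ ρ _ (LinearMap.ker f).subtype f.rangeRestrict inferInstance hp
    (Submodule.subtype_injective _) f.surjective_rangeRestrict ?_ (fun g a => rfl)
    (fun g b => Subtype.ext (hf g b))
  intro v
  constructor
  · intro hv
    have hv' : f v = 0 := congrArg Subtype.val hv
    exact ⟨⟨v, hv'⟩, rfl⟩
  · rintro ⟨⟨w, hw⟩, rfl⟩
    exact Subtype.ext hw

end Additive

/-! ## Reduction mod `p` -/

section Red

/-- The submodule `p L` of `L`. -/
def pSub (p : ℕ) (L : Type) [AddCommGroup L] : Submodule ℤ L :=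
  LinearMap.range ((p : ℤ) • (LinearMap.id : L →ₗ[ℤ] L))

theorem mem_pSub {p : ℕ} {L : Type} [AddCommGroup L] {x : L} :
    x ∈ pSub p L ↔ ∃ y : L, p • y = x := by
  simp [pSub, LinearMap.mem_range]

/-- The reduction `L / p L`. -/
abbrev Red (p : ℕ) (L : Type) [AddCommGroup L] : Type := L ⧸ pSub p L

variable {p : ℕ} {L L' L'' : Type} [AddCommGroup L] [AddCommGroup L'] [AddCommGroup L'']

theorem pSub_le_comap (p : ℕ) (f : L →ₗ[ℤ] L') : pSub p L ≤ (pSub p L').comap f := by
  intro x hx
  obtain ⟨y, rfl⟩ := mem_pSub.mp hx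
  exact mem_pSub.mpr ⟨f y, by rw [map_nsmul]⟩

/-- The map induced on reductions. -/
def redMap (p : ℕ) (f : L →ₗ[ℤ] L') : Red p L →ₗ[ℤ] Red p L' :=
  Submodule.mapQ _ _ f (pSub_le_comap p f)

@[simp]
theorem redMap_mk (f : L →ₗ[ℤ] L') (x : L) :
    redMap p f (Submodule.Quotient.mk x) = Submodule.Quotient.mk (f x) :=
  rfl

/-- The representation induced on the reduction. -/
def redRep (p : ℕ) (ρ : Representation ℤ Γ L) : Representation ℤ Γ (Red p L) :=
  ρ.quotient (pSub p L) (fun g => pSub_le_comap p (ρ g))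

@[simp]
theorem redRep_mk (ρ : Representation ℤ Γ L) (g : Γ) (x : L) :
    redRep p ρ g (Submodule.Quotient.mk x) = Submodule.Quotient.mk (ρ g x) :=
  rfl

theorem redRep_apply (ρ : Representation ℤ Γ L) (g : Γ) : redRep p ρ g = redMap p (ρ g) :=
  rfl

theorem red_nsmul_eq_zero (x : Red p L) : p • x = 0 := by
  obtain ⟨x, rfl⟩ := Submodule.Quotient.mk_surjective _ x
  rw [← Submodule.Quotient.mk_smul, Submodule.Quotient.mk_eq_zero]
  exact mem_pSub.mpr ⟨x, rfl⟩

theorem red_mk_eq_zero {x : L} :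
    (Submodule.Quotient.mk x : Red p L) = 0 ↔ ∃ y : L, p • y = x := by
  rw [Submodule.Quotient.mk_eq_zero, mem_pSub]

instance red_finite [NeZero p] [Module.Finite ℤ L] : Finite (Red p L) := by
  apply Module.finite_of_fg_torsion
  intro x
  refine ⟨⟨(p : ℤ), mem_nonZeroDivisors_of_ne_zero (by exact_mod_cast NeZero.ne p)⟩, ?_⟩
  change (p : ℤ) • x = 0
  rw [natCast_zsmul]
  exact red_nsmul_eq_zero x

theorem redMap_equivariant {ρ : Representation ℤ Γ L} {ρ' : Representation ℤ Γ L'}
    (f : L →ₗ[ℤ] L') (hf : ∀ g x, f (ρ g x) = ρ' g (f x)) (g : Γ) (x : Red p L) :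
    redMap p f (redRep p ρ g x) = redRep p ρ' g (redMap p f x) := by
  obtain ⟨x, rfl⟩ := Submodule.Quotient.mk_surjective _ x
  simp [hf]

theorem redMap_surjective (q : L →ₗ[ℤ] L') (hq : Function.Surjective q) :
    Function.Surjective (redMap p q) := by
  intro y
  obtain ⟨y, rfl⟩ := Submodule.Quotient.mk_surjective _ y
  obtain ⟨x, rfl⟩ := hq y
  exact ⟨Submodule.Quotient.mk x, rfl⟩

theorem redMap_injective_of_exact (i : L →ₗ[ℤ] L') (q : L' →ₗ[ℤ] L'')
    (hi : Function.Injective i) (hex : Function.Exact i q)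
    (htf : ∀ c : L'', p • c = 0 → c = 0) : Function.Injective (redMap p i) := by
  rw [injective_iff_map_eq_zero]
  intro x hx
  obtain ⟨a, rfl⟩ := Submodule.Quotient.mk_surjective _ x
  rw [redMap_mk, red_mk_eq_zero] at hx
  obtain ⟨b, hb⟩ := hx
  have h1 : q b = 0 := by
    apply htf
    rw [← map_nsmul, hb]
    exact (hex (i a)).mpr ⟨a, rfl⟩
  obtain ⟨a', rfl⟩ := (hex b).mp h1
  rw [red_mk_eq_zero]
  refine ⟨a', hi ?_⟩
  rw [map_nsmul, hb]

theorem redMap_exact (i : L →ₗ[ℤ] L') (q : L' →ₗ[ℤ] L'') (hq : Function.Surjective q)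
    (hex : Function.Exact i q) : Function.Exact (redMap p i) (redMap p q) := by
  intro x
  obtain ⟨b, rfl⟩ := Submodule.Quotient.mk_surjective _ x
  rw [redMap_mk, red_mk_eq_zero]
  constructor
  · rintro ⟨c, hc⟩
    obtain ⟨b', rfl⟩ := hq c
    have h1 : q (b - p • b') = 0 := by rw [map_sub, map_nsmul, hc, sub_self]
    obtain ⟨a, ha⟩ := (hex _).mp h1
    refine ⟨Submodule.Quotient.mk a, ?_⟩
    rw [redMap_mk, ha, Submodule.Quotient.mk_sub, sub_eq_self, red_mk_eq_zero]
    exact ⟨b', rfl⟩
  · rintro ⟨y, hy⟩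
    obtain ⟨a, rfl⟩ := Submodule.Quotient.mk_surjective _ y
    rw [redMap_mk] at hy
    have h2 : (Submodule.Quotient.mk (q (i a)) : Red p L'') = Submodule.Quotient.mk (q b) := by
      have := congrArg (redMap p q) hy
      simpa using this
    rw [(hex (i a)).mpr ⟨a, rfl⟩] at h2
    exact red_mk_eq_zero.mp h2.symm

/-- Additivity of `F (L / p L)` on short exact sequences of lattices. -/
theorem IsAdditive.red_add {F : IntRepFun Γ} [NeZero p] (hF : IsAdditive p F)
    [Module.Finite ℤ L'] (ρ : Representation ℤ Γ L) (ρ' : Representation ℤ Γ L')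
    (ρ'' : Representation ℤ Γ L'') (i : L →ₗ[ℤ] L') (q : L' →ₗ[ℤ] L'')
    (hi : Function.Injective i) (hq : Function.Surjective q) (hex : Function.Exact i q)
    (htf : ∀ c : L'', p • c = 0 → c = 0)
    (hie : ∀ g x, i (ρ g x) = ρ' g (i x)) (hqe : ∀ g x, q (ρ' g x) = ρ'' g (q x)) :
    F (Red p L') (redRep p ρ') = F (Red p L) (redRep p ρ) + F (Red p L'') (redRep p ρ'') :=
  hF _ _ _ _ _ _ (redMap p i) (redMap p q) inferInstance red_nsmul_eq_zero
    (redMap_injective_of_exact i q hi hex htf) (redMap_surjective q hq) (redMap_exact i q hq hex)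
    (redMap_equivariant i hie) (redMap_equivariant q hqe)

end Red

/-! ## The step: lattices related by maps composing to a prime -/

section Step

variable {p : ℕ} {F : IntRepFun Γ}
variable {A B : Type} [AddCommGroup A] [AddCommGroup B]

theorem redMap_redMap_eq_smul (ι : A →ₗ[ℤ] B) (κ : B →ₗ[ℤ] A) (ℓ : ℕ)
    (h : ∀ b, ι (κ b) = ℓ • b) (y : Red p B) : redMap p ι (redMap p κ y) = ℓ • y := by
  obtain ⟨b, rfl⟩ := Submodule.Quotient.mk_surjective _ y
  rw [redMap_mk, redMap_mk, h, Submodule.Quotient.mk_smul]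

theorem ker_redMap_eq_range (ι : A →ₗ[ℤ] B) (κ : B →ₗ[ℤ] A)
    (h : ∀ b, ι (κ b) = p • b) (hι : Function.Injective ι) :
    LinearMap.ker (redMap p ι) = LinearMap.range (redMap p κ) := by
  ext x
  obtain ⟨a, rfl⟩ := Submodule.Quotient.mk_surjective _ x
  rw [LinearMap.mem_ker, redMap_mk, red_mk_eq_zero, LinearMap.mem_range]
  constructor
  · rintro ⟨b, hb⟩
    refine ⟨Submodule.Quotient.mk b, ?_⟩
    rw [redMap_mk]
    congr 1
    apply hι
    rw [h, hb]
  · rintro ⟨y, hy⟩
    have h1 := congrArg (redMap p ι) hy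
    rw [redMap_redMap_eq_smul ι κ p h, red_nsmul_eq_zero, redMap_mk] at h1
    exact red_mk_eq_zero.mp h1.symm

theorem redMap_bijective_of_bijective (ι : A →ₗ[ℤ] B) (hι : Function.Bijective ι) :
    Function.Bijective (redMap p ι) := by
  refine ⟨?_, redMap_surjective ι hι.2⟩
  rw [injective_iff_map_eq_zero]
  intro x hx
  obtain ⟨a, rfl⟩ := Submodule.Quotient.mk_surjective _ x
  rw [redMap_mk, red_mk_eq_zero] at hx
  obtain ⟨b, hb⟩ := hx
  obtain ⟨a', rfl⟩ := hι.2 b
  rw [red_mk_eq_zero]
  exact ⟨a', hι.1 (by rw [map_nsmul, hb])⟩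

variable [Fact p.Prime]

/-- **The step.** Lattices related by `Γ`-maps `ι`, `κ` with `ι κ = κ ι = ℓ`, `ℓ` prime, have
the same value of `F` on their reductions mod `p`. -/
theorem IsAdditive.red_eq_of_step (hF : IsAdditive p F)
    [Module.Finite ℤ A] [Module.Finite ℤ B] [IsTorsionFree ℤ A] [IsTorsionFree ℤ B]
    (ρA : Representation ℤ Γ A) (ρB : Representation ℤ Γ B)
    (ι : A →ₗ[ℤ] B) (κ : B →ₗ[ℤ] A) (ℓ : ℕ) (hℓ : ℓ.Prime)
    (h1 : ∀ a, κ (ι a) = ℓ • a) (h2 : ∀ b, ι (κ b) = ℓ • b)
    (hι : ∀ g a, ι (ρA g a) = ρB g (ι a)) (hκ : ∀ g b, κ (ρB g b) = ρA g (κ b)) :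
    F (Red p A) (redRep p ρA) = F (Red p B) (redRep p ρB) := by
  have hp : p.Prime := Fact.out
  have : NeZero p := ⟨hp.ne_zero⟩
  by_cases hℓp : ℓ = p
  · subst hℓp
    have hιinj : Function.Injective ι := by
      rw [injective_iff_map_eq_zero]
      intro a ha
      have h := h1 a
      rw [ha, map_zero] at h
      have h' : (ℓ : ℤ) • a = 0 := by rw [natCast_zsmul]; exact h.symm
      rcases smul_eq_zero.mp h' with h0 | h0
      · exact absurd (by exact_mod_cast h0) hp.ne_zero
      · exact h0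
    have hκinj : Function.Injective κ := by
      rw [injective_iff_map_eq_zero]
      intro b hb
      have h := h2 b
      rw [hb, map_zero] at h
      have h' : (ℓ : ℤ) • b = 0 := by rw [natCast_zsmul]; exact h.symm
      rcases smul_eq_zero.mp h' with h0 | h0
      · exact absurd (by exact_mod_cast h0) hp.ne_zero
      · exact h0
    have e1 := hF.eq_ker_add_range (redRep ℓ ρA) (redRep ℓ ρB) (redMap ℓ ι) red_nsmul_eq_zero
      (redMap_equivariant ι hι)
    have e2 := hF.eq_ker_add_range (redRep ℓ ρB) (redRep ℓ ρA) (redMap ℓ κ) red_nsmul_eq_zero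
      (redMap_equivariant κ hκ)
    have c1 := subF_congr F (redRep ℓ ρA) (ker_redMap_eq_range ι κ h2 hιinj)
      (ker_le_comap _ _ _ (redMap_equivariant ι hι))
      (range_le_comap _ _ _ (redMap_equivariant κ hκ))
    have c2 := subF_congr F (redRep ℓ ρB) (ker_redMap_eq_range κ ι h1 hκinj)
      (ker_le_comap _ _ _ (redMap_equivariant κ hκ))
      (range_le_comap _ _ _ (redMap_equivariant ι hι))
    rw [e1, e2, c1, c2, add_comm]
  · have hcop : Nat.Coprime ℓ p := (Nat.coprime_primes hℓ hp).mpr hℓp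
    have hbez : (1 : ℤ) = ℓ * Nat.gcdA ℓ p + p * Nat.gcdB ℓ p := by
      have := Nat.gcd_eq_gcd_ab ℓ p
      rw [hcop.gcd_eq_one] at this
      exact_mod_cast this
    have key : ∀ (M : Type) [AddCommGroup M] (x : Red p M), x = Nat.gcdA ℓ p • (ℓ • x) := by
      intro M _ x
      have hpx : ((p : ℤ) * Nat.gcdB ℓ p) • x = 0 := by
        rw [mul_comm, mul_smul, natCast_zsmul, red_nsmul_eq_zero, smul_zero]
      calc x = (1 : ℤ) • x := (one_smul ℤ x).symm
        _ = ((ℓ : ℤ) * Nat.gcdA ℓ p) • x + ((p : ℤ) * Nat.gcdB ℓ p) • x := by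
          rw [← add_smul, ← hbez]
        _ = Nat.gcdA ℓ p • (ℓ • x) := by
          rw [hpx, add_zero, mul_comm, mul_smul, natCast_zsmul]
    refine hF.eq_of_bijective _ _ (redMap p ι) ⟨?_, ?_⟩ red_nsmul_eq_zero
      (redMap_equivariant ι hι)
    · rw [injective_iff_map_eq_zero]
      intro x hx
      have h := redMap_redMap_eq_smul (p := p) κ ι ℓ h1 x
      rw [hx, map_zero] at h
      rw [key A x, ← h, smul_zero]
    · intro y
      refine ⟨redMap p κ (Nat.gcdA ℓ p • y), ?_⟩
      rw [redMap_redMap_eq_smul ι κ ℓ h2, smul_comm]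
      exact (key B y).symm

/-- Reductions of a lattice and of a sublattice of finite index have the same value of `F`. -/
theorem IsAdditive.red_eq_of_exponent (hF : IsAdditive p F) (m : ℕ) :
    0 < m → ∀ (A B : Type) [AddCommGroup A] [AddCommGroup B] [Module.Finite ℤ A]
      [Module.Finite ℤ B] [IsTorsionFree ℤ A] [IsTorsionFree ℤ B]
      (ρA : Representation ℤ Γ A) (ρB : Representation ℤ Γ B) (ι : A →ₗ[ℤ] B),
      Function.Injective ι → (∀ g a, ι (ρA g a) = ρB g (ι a)) → (∀ b, ∃ a, ι a = m • b) →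
      F (Red p A) (redRep p ρA) = F (Red p B) (redRep p ρB) := by
  have hp : p.Prime := Fact.out
  have : NeZero p := ⟨hp.ne_zero⟩
  induction m using Nat.strong_induction_on with
  | _ m ih =>
    intro hm A B _ _ _ _ _ _ ρA ρB ι hι hιe hm'
    rcases Nat.lt_or_ge 1 m with h1 | h1
    · have hℓ : (m.minFac).Prime := Nat.minFac_prime (by omega)
      obtain ⟨m', hm'eq⟩ : ∃ m', m = m.minFac * m' := Nat.minFac_dvd m
      have hm'pos : 0 < m' := by
        rcases Nat.eq_zero_or_pos m' with h0 | h0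
        · rw [h0, mul_zero] at hm'eq; omega
        · exact h0
      have hm'lt : m' < m := by
        have := hℓ.two_le
        nlinarith
      let A' : Submodule ℤ B := (LinearMap.range ι).comap ((m' : ℤ) • LinearMap.id)
      have hA'mem : ∀ b, b ∈ A' ↔ ∃ a, ι a = m' • b := by
        intro b
        simp [A', LinearMap.mem_range]
      have hA'stable : ∀ g, A' ≤ A'.comap (ρB g) := by
        intro g b hb
        obtain ⟨a, ha⟩ := (hA'mem b).mp hb
        rw [Submodule.mem_comap, hA'mem]
        exact ⟨ρA g a, by rw [hιe, ha, map_nsmul]⟩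
      let ι' : A →ₗ[ℤ] A' := ι.codRestrict A'
        (fun a => (hA'mem _).mpr ⟨m' • a, by rw [map_nsmul]⟩)
      have e1 : F (Red p A) (redRep p ρA) =
          F (Red p A') (redRep p (ρB.subrepresentation A' hA'stable)) := by
        refine ih m' hm'lt hm'pos A A' ρA (ρB.subrepresentation A' hA'stable) ι' ?_ ?_ ?_
        · intro a a' h
          exact hι (congrArg Subtype.val h)
        · intro g a
          exact Subtype.ext (hιe g a)
        · intro b
          obtain ⟨a, ha⟩ := (hA'mem b).mp b.2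
          exact ⟨a, Subtype.ext (ha.trans (by simp))⟩
      let κ : B →ₗ[ℤ] A' := (((m.minFac : ℕ) : ℤ) • LinearMap.id).codRestrict A' (fun b => by
        obtain ⟨a, ha⟩ := hm' b
        refine (hA'mem _).mpr ⟨a, ?_⟩
        rw [ha]
        simp only [LinearMap.smul_apply, LinearMap.id_coe, id_eq, natCast_zsmul]
        rw [smul_smul, mul_comm, ← hm'eq])
      have e2 := hF.red_eq_of_step (ρB.subrepresentation A' hA'stable) ρB A'.subtype κ m.minFac hℓ
        (fun a => Subtype.ext (by simp [κ])) (fun b => by simp [κ]) (fun g a => rfl)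
        (fun g b => Subtype.ext (by simp [κ]))
      rw [e1, e2]
    · have hm1 : m = 1 := by omega
      subst hm1
      have hbij : Function.Bijective ι :=
        ⟨hι, fun b => by obtain ⟨a, ha⟩ := hm' b; exact ⟨a, by simpa using ha⟩⟩
      exact hF.eq_of_bijective _ _ (redMap p ι) (redMap_bijective_of_bijective ι hbij)
        red_nsmul_eq_zero (redMap_equivariant ι hιe)

end Step

/-! ## Traces on lattices -/

section Trace

variable {A B C : Type} [AddCommGroup A] [AddCommGroup B] [AddCommGroup C]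
  [Module.Finite ℤ A] [Module.Finite ℤ B] [Module.Finite ℤ C]
  [IsTorsionFree ℤ A] [IsTorsionFree ℤ B] [IsTorsionFree ℤ C]

/-- Traces are additive on short exact sequences of lattices. -/
theorem trace_eq_add_of_exact (i : A →ₗ[ℤ] B) (q : B →ₗ[ℤ] C) (hi : Function.Injective i)
    (hq : Function.Surjective q) (hex : Function.Exact i q)
    (fA : A →ₗ[ℤ] A) (fB : B →ₗ[ℤ] B) (fC : C →ₗ[ℤ] C)
    (hiA : ∀ a, i (fA a) = fB (i a)) (hqB : ∀ b, q (fB b) = fC (q b)) :
    LinearMap.trace ℤ B fB = LinearMap.trace ℤ A fA + LinearMap.trace ℤ C fC := by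
  obtain ⟨s, hs⟩ := Module.projective_lifting_property q LinearMap.id hq
  have hs' : ∀ c, q (s c) = c := fun c => LinearMap.congr_fun hs c
  have hmem : ∀ b, ((LinearMap.id : B →ₗ[ℤ] B) - s ∘ₗ q) b ∈ LinearMap.range i := by
    intro b
    apply (hex _).mp
    simp [hs']
  let r : B →ₗ[ℤ] A := (LinearEquiv.ofInjective i hi).symm.toLinearMap ∘ₗ
    (LinearMap.codRestrict (LinearMap.range i) (LinearMap.id - s ∘ₗ q) hmem)
  have hr : ∀ b, i (r b) = b - s (q b) := by
    intro b
    have h : ((LinearEquiv.ofInjective i hi) (r b) : B) = i (r b) := rfl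
    rw [← h]
    change (((LinearEquiv.ofInjective i hi) ((LinearEquiv.ofInjective i hi).symm
      (LinearMap.codRestrict (LinearMap.range i) ((LinearMap.id : B →ₗ[ℤ] B) - s ∘ₗ q) hmem b))
        : LinearMap.range i) : B) = _
    rw [LinearEquiv.apply_symm_apply]
    rfl
  have hri : r ∘ₗ i = LinearMap.id := by
    ext a
    apply hi
    rw [LinearMap.comp_apply, hr, (hex (i a)).mpr ⟨a, rfl⟩, map_zero, sub_zero]
    rfl
  have hfB : fB = i ∘ₗ (fA ∘ₗ r) + (fB ∘ₗ s) ∘ₗ q := by
    ext b
    simp only [LinearMap.add_apply, LinearMap.comp_apply]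
    rw [hiA, hr, map_sub, sub_add_cancel]
  have hqf : q ∘ₗ (fB ∘ₗ s) = fC := by
    ext c
    simp only [LinearMap.comp_apply]
    rw [hqB, hs']
  conv_lhs => rw [hfB]
  rw [map_add, LinearMap.trace_comp_comm' (fA ∘ₗ r) i, LinearMap.comp_assoc, hri,
    LinearMap.comp_id, LinearMap.trace_comp_comm' q (fB ∘ₗ s), hqf]

/-- Lattices related by maps composing to a nonzero integer have the same traces. -/
theorem trace_eq_of_isogeny (ι : A →ₗ[ℤ] B) (κ : B →ₗ[ℤ] A) (m : ℕ) (hm : 0 < m)
    (h1 : ∀ a, κ (ι a) = m • a) (h2 : ∀ b, ι (κ b) = m • b)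
    (fA : A →ₗ[ℤ] A) (fB : B →ₗ[ℤ] B) (hι : ∀ a, ι (fA a) = fB (ι a)) :
    LinearMap.trace ℤ A fA = LinearMap.trace ℤ B fB := by
  have e1 : (fA ∘ₗ κ) ∘ₗ ι = (m : ℤ) • fA := by
    ext a
    simp only [LinearMap.comp_apply, LinearMap.smul_apply]
    rw [h1, map_nsmul, natCast_zsmul]
  have e2 : ι ∘ₗ (fA ∘ₗ κ) = (m : ℤ) • fB := by
    ext b
    simp only [LinearMap.comp_apply, LinearMap.smul_apply]
    rw [hι, h2, map_nsmul, natCast_zsmul]
  have h := LinearMap.trace_comp_comm' ι (fA ∘ₗ κ)
  rw [e1, e2, map_smul, map_smul, smul_eq_mul, smul_eq_mul] at h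
  exact mul_left_cancel₀ (by exact_mod_cast hm.ne') h

end Trace

/-! ## A nonzero equivariant map between lattices with equal characters -/

section Hom

variable [Fintype Γ] {L₁ L₂ : Type} [AddCommGroup L₁] [AddCommGroup L₂]
  [Module.Finite ℤ L₁] [Module.Finite ℤ L₂] [IsTorsionFree ℤ L₁] [IsTorsionFree ℤ L₂]

omit [Fintype Γ] in
theorem trace_linHom (ρ₁ : Representation ℤ Γ L₁) (ρ₂ : Representation ℤ Γ L₂) (g : Γ) :
    LinearMap.trace ℤ (L₁ →ₗ[ℤ] L₂) (Representation.linHom ρ₁ ρ₂ g) =
      LinearMap.trace ℤ L₁ (ρ₁ g⁻¹) * LinearMap.trace ℤ L₂ (ρ₂ g) := by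
  have h := Representation.dualTensorHom_comm ρ₁ ρ₂ g
  have h2 : (dualTensorHomEquiv ℤ L₁ L₂).conj (TensorProduct.map (ρ₁.dual g) (ρ₂ g)) =
      Representation.linHom ρ₁ ρ₂ g := by
    apply LinearMap.ext
    intro φ
    have h3 := LinearMap.congr_fun h ((dualTensorHomEquiv ℤ L₁ L₂).symm φ)
    simp only [LinearMap.comp_apply] at h3
    rw [LinearEquiv.conj_apply_apply]
    have h4 : ∀ x, dualTensorHom ℤ L₁ L₂ x = dualTensorHomEquiv ℤ L₁ L₂ x := fun x => rfl
    rw [h4, h4, LinearEquiv.apply_symm_apply] at h3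
    exact h3
  rw [← h2, LinearMap.trace_conj', LinearMap.trace_tensorProduct', Representation.dual_apply,
    LinearMap.trace_transpose']

/-- Two lattices with the same character, the first one nonzero, have a nonzero equivariant
map. -/
theorem exists_equivariant_ne_zero [Nontrivial L₁] (ρ₁ : Representation ℤ Γ L₁)
    (ρ₂ : Representation ℤ Γ L₂)
    (h : ∀ g, LinearMap.trace ℤ L₁ (ρ₁ g) = LinearMap.trace ℤ L₂ (ρ₂ g)) :
    ∃ φ : L₁ →ₗ[ℤ] L₂, φ ≠ 0 ∧ ∀ g x, φ (ρ₁ g x) = ρ₂ g (φ x) := by
  classical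
  have htr : LinearMap.trace ℤ _ (Representation.linHom ρ₁ ρ₂).norm =
      LinearMap.trace ℤ _ (Representation.linHom ρ₁ ρ₁).norm := by
    simp only [Representation.norm, map_sum, trace_linHom, h]
  have hE0 : LinearMap.trace ℤ _ (Representation.linHom ρ₁ ρ₁).norm ≠ 0 := by
    obtain ⟨E, hE⟩ : ∃ E, E = (Representation.linHom ρ₁ ρ₁).norm := ⟨_, rfl⟩
    rw [← hE]
    have hEdef : ∀ y, E y = ∑ g : Γ, Representation.linHom ρ₁ ρ₁ g y := by
      intro y
      rw [hE, Representation.norm, LinearMap.sum_apply]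
    have hEE : ∀ x, E (E x) = (Fintype.card Γ : ℤ) • E x := by
      intro x
      rw [hEdef (E x)]
      have : ∀ g : Γ, Representation.linHom ρ₁ ρ₁ g (E x) = E x := by
        intro g
        rw [hE]
        exact Representation.self_norm_apply _ g x
      simp_rw [this]
      simp
    have hmem : ∀ x, E x ∈ LinearMap.range E := fun x => ⟨x, rfl⟩
    have h1 := LinearMap.trace_restrict_eq_of_forall_mem (LinearMap.range E) E hmem
    have h2 : E.restrict (fun x _ => hmem x) =
        (Fintype.card Γ : ℤ) • (LinearMap.id : LinearMap.range E →ₗ[ℤ] LinearMap.range E) := by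
      apply LinearMap.ext
      rintro ⟨y, hy⟩
      obtain ⟨x, rfl⟩ := hy
      apply Subtype.ext
      exact hEE x
    have hid : E LinearMap.id = (Fintype.card Γ : ℤ) • LinearMap.id := by
      rw [hEdef]
      have : ∀ g : Γ, Representation.linHom ρ₁ ρ₁ g LinearMap.id = LinearMap.id := by
        intro g
        rw [Representation.linHom_apply, LinearMap.id_comp, ← Module.End.mul_eq_comp,
          ← map_mul, mul_inv_cancel, map_one]
        rfl
      simp_rw [this]
      simp
    have hidne : E LinearMap.id ≠ 0 := by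
      rw [hid]
      intro h0
      rcases smul_eq_zero.mp h0 with h00 | h00
      · exact absurd (by exact_mod_cast h00) Fintype.card_ne_zero
      · obtain ⟨x, hx⟩ := exists_ne (0 : L₁)
        exact hx (LinearMap.congr_fun h00 x)
    have hnt : Nontrivial (LinearMap.range E) :=
      ⟨⟨⟨E LinearMap.id, hmem _⟩, 0, fun h0 => hidne (congrArg Subtype.val h0)⟩⟩
    have hpos : 0 < Module.finrank ℤ (LinearMap.range E) := Module.finrank_pos
    rw [← h1, h2, map_smul, LinearMap.trace_id, smul_eq_mul]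
    have hc : (0 : ℤ) < Fintype.card Γ := by exact_mod_cast Fintype.card_pos
    have hf : (0 : ℤ) < Module.finrank ℤ (LinearMap.range E) := by exact_mod_cast hpos
    positivity
  have hN0 : (Representation.linHom ρ₁ ρ₂).norm ≠ 0 := by
    intro h0
    rw [h0, map_zero] at htr
    exact hE0 htr.symm
  obtain ⟨φ₀, hφ₀⟩ : ∃ φ₀, (Representation.linHom ρ₁ ρ₂).norm φ₀ ≠ 0 := by
    by_contra hcon
    exact hN0 (LinearMap.ext fun φ => by
      by_contra h'
      exact hcon ⟨φ, h'⟩)
  refine ⟨(Representation.linHom ρ₁ ρ₂).norm φ₀, hφ₀, fun g x => ?_⟩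
  have h1 := Representation.self_norm_apply (Representation.linHom ρ₁ ρ₂) g φ₀
  have h2 := LinearMap.congr_fun h1 (ρ₁ g x)
  rw [Representation.linHom_apply] at h2
  simp only [LinearMap.comp_apply] at h2
  rw [← h2, ← Module.End.mul_apply, ← map_mul, inv_mul_cancel, map_one]
  rfl

end Hom

/-! ## Saturation -/

section Sat

variable {L : Type} [AddCommGroup L]

/-- The saturation of a submodule of a `ℤ`-module. -/
def sat (R : Submodule ℤ L) : Submodule ℤ L where
  carrier := {y | ∃ n : ℤ, n ≠ 0 ∧ n • y ∈ R}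
  add_mem' := by
    rintro y y' ⟨n, hn, hy⟩ ⟨n', hn', hy'⟩
    refine ⟨n * n', mul_ne_zero hn hn', ?_⟩
    rw [smul_add]
    refine R.add_mem ?_ ?_
    · rw [mul_comm, mul_smul]
      exact R.smul_mem _ hy
    · rw [mul_smul]
      exact R.smul_mem _ hy'
  zero_mem' := ⟨1, one_ne_zero, by simp⟩
  smul_mem' := by
    rintro c y ⟨n, hn, hy⟩
    exact ⟨n, hn, by rw [smul_comm]; exact R.smul_mem _ hy⟩

theorem mem_sat {R : Submodule ℤ L} {y : L} : y ∈ sat R ↔ ∃ n : ℤ, n ≠ 0 ∧ n • y ∈ R :=
  Iff.rfl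

theorem le_sat (R : Submodule ℤ L) : R ≤ sat R :=
  fun y hy => ⟨1, one_ne_zero, by simpa using hy⟩

theorem sat_le_comap (R : Submodule ℤ L) (f : L →ₗ[ℤ] L) (h : R ≤ R.comap f) :
    sat R ≤ (sat R).comap f := by
  rintro y ⟨n, hn, hy⟩
  exact ⟨n, hn, by rw [← map_zsmul]; exact h hy⟩

instance isTorsionFree_quotient_sat (R : Submodule ℤ L) : IsTorsionFree ℤ (L ⧸ sat R) := by
  apply Module.IsTorsionFree.of_smul_eq_zero
  intro r x hx
  by_cases hr : r = 0
  · exact Or.inl hr
  · right
    obtain ⟨y, rfl⟩ := Submodule.Quotient.mk_surjective _ x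
    rw [← Submodule.Quotient.mk_smul, Submodule.Quotient.mk_eq_zero] at hx
    obtain ⟨n, hn, hy⟩ := hx
    rw [Submodule.Quotient.mk_eq_zero]
    exact ⟨n * r, mul_ne_zero hn hr, by rw [mul_smul]; exact hy⟩

theorem exists_exponent_sat [Module.Finite ℤ L] (R : Submodule ℤ L) :
    ∃ m : ℕ, 0 < m ∧ ∀ y ∈ sat R, m • y ∈ R := by
  classical
  have hfg : (sat R).FG := IsNoetherian.noetherian _
  obtain ⟨s, hs⟩ := hfg
  have hmem : ∀ y ∈ s, ∃ n : ℤ, n ≠ 0 ∧ n • y ∈ R := fun y hy => by
    have : y ∈ sat R := hs ▸ Submodule.subset_span hy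
    exact this
  choose! n hn0 hnR using hmem
  have key : ∀ y ∈ Submodule.span ℤ (s : Set L), (∏ z ∈ s, n z) • y ∈ R := by
    intro y hy
    induction hy using Submodule.span_induction with
    | mem z hz =>
      rw [← Finset.mul_prod_erase s n hz, mul_comm, mul_smul]
      exact R.smul_mem _ (hnR z hz)
    | zero => simp
    | add a b _ _ ha hb => rw [smul_add]; exact R.add_mem ha hb
    | smul c a _ ha => rw [smul_comm]; exact R.smul_mem _ ha
  refine ⟨(∏ y ∈ s, n y).natAbs, Int.natAbs_pos.mpr (Finset.prod_ne_zero_iff.mpr hn0), ?_⟩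
  intro y hy
  rw [← hs] at hy
  have h1 := key y hy
  rw [← natCast_zsmul]
  rcases Int.natAbs_eq (∏ z ∈ s, n z) with h | h
  · rw [← h]
    exact h1
  · rw [h, neg_smul, neg_mem_iff] at h1
    exact h1

end Sat

/-! ## The main theorem -/

section Main

variable {p : ℕ} [Fact p.Prime] {F : IntRepFun Γ} [Finite Γ]

theorem IsAdditive.red_eq_of_trace_eq_aux (hF : IsAdditive p F) (n : ℕ) :
    ∀ (L₁ L₂ : Type) [AddCommGroup L₁] [AddCommGroup L₂] [Module.Finite ℤ L₁]
      [Module.Finite ℤ L₂] [IsTorsionFree ℤ L₁] [IsTorsionFree ℤ L₂]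
      (ρ₁ : Representation ℤ Γ L₁) (ρ₂ : Representation ℤ Γ L₂),
      Module.finrank ℤ L₁ = n →
      (∀ g, LinearMap.trace ℤ L₁ (ρ₁ g) = LinearMap.trace ℤ L₂ (ρ₂ g)) →
      F (Red p L₁) (redRep p ρ₁) = F (Red p L₂) (redRep p ρ₂) := by
  have hp : p.Prime := Fact.out
  have : NeZero p := ⟨hp.ne_zero⟩
  have := Fintype.ofFinite Γ
  induction n using Nat.strong_induction_on with
  | _ n ih =>
    intro L₁ L₂ _ _ _ _ _ _ ρ₁ ρ₂ hn htr
    have hrank : Module.finrank ℤ L₁ = Module.finrank ℤ L₂ := by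
      have h1 := htr 1
      rw [map_one ρ₁, map_one ρ₂, LinearMap.trace_one, LinearMap.trace_one] at h1
      exact_mod_cast h1
    rcases subsingleton_or_nontrivial L₁ with hsub | hnt
    · have h2 : Subsingleton L₂ := by
        have h0 : Module.finrank ℤ L₁ = 0 := Module.finrank_zero_of_subsingleton
        rw [hrank] at h0
        exact Module.finrank_zero_iff.mp h0
      rw [hF.eq_zero_of_subsingleton, hF.eq_zero_of_subsingleton]
    · obtain ⟨φ, hφ0, hφ⟩ := exists_equivariant_ne_zero ρ₁ ρ₂ htr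
      have hK := ker_le_comap ρ₁ ρ₂ φ hφ
      have hR := range_le_comap ρ₁ ρ₂ φ hφ
      have hI : ∀ g, sat (LinearMap.range φ) ≤ (sat (LinearMap.range φ)).comap (ρ₂ g) :=
        fun g => sat_le_comap _ (ρ₂ g) (hR g)
      have hex1 : Function.Exact (LinearMap.ker φ).subtype φ.rangeRestrict := by
        intro v
        constructor
        · intro hv
          have hv' : φ v = 0 := congrArg Subtype.val hv
          exact ⟨⟨v, hv'⟩, rfl⟩
        · rintro ⟨⟨w, hw⟩, rfl⟩
          exact Subtype.ext hw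
      have hex2 : Function.Exact (sat (LinearMap.range φ)).subtype (sat (LinearMap.range φ)).mkQ := by
        intro v
        rw [Submodule.mkQ_apply, Submodule.Quotient.mk_eq_zero]
        constructor
        · intro hv
          exact ⟨⟨v, hv⟩, rfl⟩
        · rintro ⟨w, rfl⟩
          exact w.2
      have htf : ∀ (M : Type) [AddCommGroup M] [IsTorsionFree ℤ M] (c : M), p • c = 0 → c = 0 := by
        intro M _ _ c hc
        have h' : (p : ℤ) • c = 0 := by rw [natCast_zsmul]; exact hc
        rcases smul_eq_zero.mp h' with h0 | h0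
        · exact absurd (by exact_mod_cast h0) hp.ne_zero
        · exact h0
      have e1 := hF.red_add (ρ₁.subrepresentation _ hK) ρ₁ (ρ₂.subrepresentation _ hR)
        (LinearMap.ker φ).subtype φ.rangeRestrict (Submodule.subtype_injective _)
        φ.surjective_rangeRestrict hex1 (htf _) (fun g x => rfl) (fun g x => Subtype.ext (hφ g x))
      have e2 := hF.red_add (ρ₂.subrepresentation _ hI) ρ₂ (ρ₂.quotient _ hI)
        (sat (LinearMap.range φ)).subtype (sat (LinearMap.range φ)).mkQ
        (Submodule.subtype_injective _) (Submodule.mkQ_surjective _) hex2 (htf _)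
        (fun g x => rfl) (fun g x => rfl)
      obtain ⟨m, hm, hmI⟩ := exists_exponent_sat (LinearMap.range φ)
      let ι : LinearMap.range φ →ₗ[ℤ] sat (LinearMap.range φ) :=
        Submodule.inclusion (le_sat (LinearMap.range φ))
      let κ : sat (LinearMap.range φ) →ₗ[ℤ] LinearMap.range φ :=
        LinearMap.codRestrict (LinearMap.range φ) ((m : ℤ) • (sat (LinearMap.range φ)).subtype)
          (fun y => by
            have := hmI y y.2
            simpa using this)
      have hικ : ∀ b, ι (κ b) = m • b := fun b => Subtype.ext (by simp [ι, κ])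
      have hκι : ∀ a, κ (ι a) = m • a := fun a => Subtype.ext (by simp [ι, κ])
      have e3 : F (Red p (LinearMap.range φ)) (redRep p (ρ₂.subrepresentation _ hR)) =
          F (Red p (sat (LinearMap.range φ))) (redRep p (ρ₂.subrepresentation _ hI)) :=
        hF.red_eq_of_exponent m hm _ _ _ _ ι (Submodule.inclusion_injective _) (fun g a => rfl)
          (fun b => ⟨κ b, hικ b⟩)
      have t1 : ∀ g, LinearMap.trace ℤ L₁ (ρ₁ g) =
          LinearMap.trace ℤ _ (ρ₁.subrepresentation _ hK g) +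
            LinearMap.trace ℤ _ (ρ₂.subrepresentation _ hR g) := fun g =>
        trace_eq_add_of_exact (LinearMap.ker φ).subtype φ.rangeRestrict
          (Submodule.subtype_injective _) φ.surjective_rangeRestrict hex1 _ _ _
          (fun a => rfl) (fun b => Subtype.ext (hφ g b))
      have t2 : ∀ g, LinearMap.trace ℤ L₂ (ρ₂ g) =
          LinearMap.trace ℤ _ (ρ₂.subrepresentation _ hI g) +
            LinearMap.trace ℤ _ (ρ₂.quotient _ hI g) := fun g =>
        trace_eq_add_of_exact (sat (LinearMap.range φ)).subtype (sat (LinearMap.range φ)).mkQ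
          (Submodule.subtype_injective _) (Submodule.mkQ_surjective _) hex2 _ _ _
          (fun a => rfl) (fun b => rfl)
      have t3 : ∀ g, LinearMap.trace ℤ _ (ρ₂.subrepresentation _ hR g) =
          LinearMap.trace ℤ _ (ρ₂.subrepresentation _ hI g) := fun g =>
        trace_eq_of_isogeny ι κ m hm hκι hικ _ _ (fun a => rfl)
      have t4 : ∀ g, LinearMap.trace ℤ _ (ρ₁.subrepresentation _ hK g) =
          LinearMap.trace ℤ _ (ρ₂.quotient _ hI g) := fun g => by
        have h1 := htr g
        rw [t1, t2, t3] at h1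
        linarith
      have hKlt : Module.finrank ℤ (LinearMap.ker φ) < n := by
        have h1 := t1 1
        rw [map_one ρ₁, map_one (ρ₁.subrepresentation _ hK),
          map_one (ρ₂.subrepresentation _ hR), LinearMap.trace_one, LinearMap.trace_one,
          LinearMap.trace_one] at h1
        have hnt' : Nontrivial (LinearMap.range φ) := by
          have hx : ∃ x, φ x ≠ 0 := by
            by_contra hcon
            exact hφ0 (LinearMap.ext fun x => by
              by_contra h'
              exact hcon ⟨x, h'⟩)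
          obtain ⟨x, hx⟩ := hx
          exact ⟨⟨⟨φ x, ⟨x, rfl⟩⟩, 0, fun h0 => hx (congrArg Subtype.val h0)⟩⟩
        have hRpos : 0 < Module.finrank ℤ (LinearMap.range φ) := Module.finrank_pos
        have h2 : Module.finrank ℤ L₁ =
            Module.finrank ℤ (LinearMap.ker φ) + Module.finrank ℤ (LinearMap.range φ) := by
          exact_mod_cast h1
        omega
      have e4 := ih _ hKlt (LinearMap.ker φ) (L₂ ⧸ sat (LinearMap.range φ))
        (ρ₁.subrepresentation _ hK) (ρ₂.quotient _ hI) rfl t4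
      rw [e1, e2, e3, e4, add_comm]

/-- **Brauer–Nesbitt for additive functions.** If two `Γ`-lattices have the same character, then
an additive function takes the same value on their reductions mod `p`. -/
theorem IsAdditive.red_eq_of_trace_eq (hF : IsAdditive p F)
    {L₁ L₂ : Type} [AddCommGroup L₁] [AddCommGroup L₂] [Module.Finite ℤ L₁]
    [Module.Finite ℤ L₂] [IsTorsionFree ℤ L₁] [IsTorsionFree ℤ L₂]
    (ρ₁ : Representation ℤ Γ L₁) (ρ₂ : Representation ℤ Γ L₂)
    (h : ∀ g, LinearMap.trace ℤ L₁ (ρ₁ g) = LinearMap.trace ℤ L₂ (ρ₂ g)) :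
    F (Red p L₁) (redRep p ρ₁) = F (Red p L₂) (redRep p ρ₂) :=
  hF.red_eq_of_trace_eq_aux _ L₁ L₂ ρ₁ ρ₂ rfl h

end Main

end Fermat.Agent.Lib.RepInd
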