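import Mathlib
import Fermat.Agent.Lib.RepInd.Lattice

/-!
# Modular Artin induction for additive functions

`Γ` is a finite group, `k` a field of characteristic `p`, `F` a `ℤ`-valued function on
finite-dimensional `k`-linear representations of `Γ`, additive on short exact sequences
(`IsAdditiveK F`), and `X` a finite-dimensional representation.  The main result:

* `eq_zero_of_cyclic` : if `F (X ⊗ k[Γ/C]) = 0` for every cyclic subgroup `C` of `Γ`, then
  `F X = 0`.

Here `X ⊗ k[Γ/C]` is realised as the space of functions `Γ ⧸ C → X` with the action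
`(g • f) s = ρ g (f (g⁻¹ • s))` (`permRep ρ (Γ ⧸ C)`).
-/

set_option autoImplicit false

namespace Fermat.Agent.Lib.RepInd

open Module

/-! ## Functions on `k`-linear representations -/

/-- `ℤ`-valued functions on `k`-linear representations of `Γ`. -/
abbrev RepFun (k Γ : Type) [Field k] [Group Γ] : Type 1 :=
  ∀ (V : Type) [AddCommGroup V] [Module k V], Representation k Γ V → ℤ

section KDefs

variable {k Γ : Type} [Field k] [Group Γ]

/-- Additivity of `F` on short exact sequences of finite-dimensional representations. -/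
def IsAdditiveK (F : RepFun k Γ) : Prop :=
  ∀ (A B C : Type) [AddCommGroup A] [Module k A] [AddCommGroup B] [Module k B]
    [AddCommGroup C] [Module k C]
    (ρA : Representation k Γ A) (ρB : Representation k Γ B) (ρC : Representation k Γ C)
    (i : A →ₗ[k] B) (q : B →ₗ[k] C), FiniteDimensional k B →
    Function.Injective i → Function.Surjective q → Function.Exact i q →
    (∀ g a, i (ρA g a) = ρB g (i a)) → (∀ g b, q (ρB g b) = ρC g (q b)) →
    F B ρB = F A ρA + F C ρC

variable {F : RepFun k Γ}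

theorem IsAdditiveK.eq_zero_of_subsingleton (hF : IsAdditiveK F)
    (C : Type) [AddCommGroup C] [Module k C] [Subsingleton C] (ρ : Representation k Γ C) :
    F C ρ = 0 := by
  have h := hF C C C ρ ρ ρ LinearMap.id 0 inferInstance
    Function.injective_id (fun c => ⟨0, Subsingleton.elim _ _⟩)
    (fun b => ⟨fun _ => ⟨b, rfl⟩, fun _ => Subsingleton.elim _ _⟩) (fun g a => rfl)
    (fun g b => Subsingleton.elim _ _)
  linarith

/-- An additive function is invariant under equivariant isomorphisms. -/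
theorem IsAdditiveK.eq_of_bijective (hF : IsAdditiveK F)
    {A B : Type} [AddCommGroup A] [Module k A] [AddCommGroup B] [Module k B]
    (ρA : Representation k Γ A) (ρB : Representation k Γ B) (e : A →ₗ[k] B)
    (he : Function.Bijective e) [FiniteDimensional k B]
    (hcomm : ∀ g a, e (ρA g a) = ρB g (e a)) : F A ρA = F B ρB := by
  have h := hF A B PUnit ρA ρB 1 e 0 inferInstance he.1
    (fun c => ⟨0, Subsingleton.elim _ _⟩)
    (fun b => ⟨fun _ => he.2 b, fun _ => rfl⟩) hcomm (fun g b => Subsingleton.elim _ _)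
  rw [h, hF.eq_zero_of_subsingleton PUnit 1, add_zero]

end KDefs

/-! ## The functor `Hom_ℤ(-, X)` -/

section HomFunctor

variable {k Γ : Type} [Field k] [Group Γ] {X : Type} [AddCommGroup X] [Module k X]

/-- The representation of `Γ` on `Hom_ℤ(W, X)`: `g • h = ρ g ∘ h ∘ ρW g⁻¹`. -/
def homRep (ρ : Representation k Γ X) {W : Type} [AddCommGroup W] (ρW : Representation ℤ Γ W) :
    Representation k Γ (W →ₗ[ℤ] X) where
  toFun g :=
    { toFun := fun h => ((ρ g).restrictScalars ℤ) ∘ₗ h ∘ₗ ρW g⁻¹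
      map_add' := fun h h' => by
        ext w
        simp
      map_smul' := fun c h => by
        ext w
        simp }
  map_one' := by
    ext h w
    simp
  map_mul' g g' := by
    ext h w
    simp

@[simp]
theorem homRep_apply (ρ : Representation k Γ X) {W : Type} [AddCommGroup W]
    (ρW : Representation ℤ Γ W) (g : Γ) (h : W →ₗ[ℤ] X) (w : W) :
    homRep ρ ρW g h w = ρ g (h (ρW g⁻¹ w)) :=
  rfl

/-- Precomposition as a `k`-linear map. -/
def precomp (k : Type) [Field k] (X : Type) [AddCommGroup X] [Module k X] {A B : Type}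
    [AddCommGroup A] [AddCommGroup B] (f : A →ₗ[ℤ] B) : (B →ₗ[ℤ] X) →ₗ[k] (A →ₗ[ℤ] X) where
  toFun h := h ∘ₗ f
  map_add' _ _ := rfl
  map_smul' _ _ := rfl

@[simp]
theorem precomp_apply {A B : Type} [AddCommGroup A] [AddCommGroup B] (f : A →ₗ[ℤ] B)
    (h : B →ₗ[ℤ] X) (a : A) : precomp k X f h a = h (f a) :=
  rfl

instance finiteDimensional_hom [FiniteDimensional k X] (B : Type) [AddCommGroup B] [Finite B] :
    FiniteDimensional k (B →ₗ[ℤ] X) :=
  FiniteDimensional.of_injective (LinearMap.ltoFun ℤ B X k) (fun h h' hh => by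
    ext b
    exact congrFun hh b)

/-- The function on integral representations induced by `F` and `X`. -/
def homFun (F : RepFun k Γ) (ρ : Representation k Γ X) : IntRepFun Γ :=
  fun W _ ρW => F (W →ₗ[ℤ] X) (homRep ρ ρW)

theorem homFun_isAdditive {F : RepFun k Γ} (hF : IsAdditiveK F) (p : ℕ) [Fact p.Prime]
    [FiniteDimensional k X] (ρ : Representation k Γ X) : IsAdditive p (homFun F ρ) := by
  intro A B C _ _ _ ρA ρB ρC i q hfin hpB hi hq hex hie hqe
  have hpA : ∀ a : A, p • a = 0 := fun a => hi (by rw [map_nsmul, hpB, map_zero])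
  have h := hF (C →ₗ[ℤ] X) (B →ₗ[ℤ] X) (A →ₗ[ℤ] X) (homRep ρ ρC) (homRep ρ ρB) (homRep ρ ρA)
    (precomp k X q) (precomp k X i) inferInstance ?_ ?_ ?_ ?_ ?_
  · change F (B →ₗ[ℤ] X) (homRep ρ ρB) = F (A →ₗ[ℤ] X) (homRep ρ ρA) + F (C →ₗ[ℤ] X) (homRep ρ ρC)
    rw [h, add_comm]
  · intro h h' hh
    ext c
    obtain ⟨b, rfl⟩ := hq c
    exact LinearMap.congr_fun hh b
  · -- extension of maps from `A` to `B`
    intro h
    let _ := AddCommGroup.zmodModule hpA
    let _ := AddCommGroup.zmodModule hpB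
    obtain ⟨r', hr'⟩ :=
      (AddMonoidHom.toZModLinearMap p i.toAddMonoidHom).exists_leftInverse_of_injective
        (LinearMap.ker_eq_bot.mpr hi)
    refine ⟨h ∘ₗ r'.toAddMonoidHom.toIntLinearMap, ?_⟩
    ext a
    have h1 := LinearMap.congr_fun hr' a
    exact congrArg h h1
  · intro h
    constructor
    · intro hh
      have hker : LinearMap.ker q ≤ LinearMap.ker h := by
        intro b hb
        obtain ⟨a, rfl⟩ := (hex b).mp hb
        exact LinearMap.congr_fun hh a
      refine ⟨(LinearMap.ker q).liftQ h hker ∘ₗ (q.quotKerEquivOfSurjective hq).symm.toLinearMap, ?_⟩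
      ext b
      have h1 : (q.quotKerEquivOfSurjective hq).symm (q b) = Submodule.Quotient.mk b := by
        rw [LinearEquiv.symm_apply_eq]
        rfl
      change (LinearMap.ker q).liftQ h hker ((q.quotKerEquivOfSurjective hq).symm (q b)) = h b
      rw [h1]
      rfl
    · rintro ⟨h', rfl⟩
      ext a
      change h' (q (i a)) = 0
      rw [(hex (i a)).mpr ⟨a, rfl⟩, map_zero]
  · intro g h
    ext b
    simp [hqe]
  · intro g h
    ext a
    simp [hie]

end HomFunctor

/-! ## Permutation representations -/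

section Perm

variable {k Γ : Type} [Field k] [Group Γ] {X : Type} [AddCommGroup X] [Module k X]

/-- The permutation lattice `ℤ^S` of a `Γ`-set `S`: `(g • f) s = f (g⁻¹ • s)`. -/
def permInt (Γ S : Type) [Group Γ] [MulAction Γ S] : Representation ℤ Γ (S → ℤ) where
  toFun g := LinearMap.funLeft ℤ ℤ (fun s => g⁻¹ • s)
  map_one' := by
    ext f s
    simp
  map_mul' g h := by
    ext f s
    simp [mul_smul]

@[simp]
theorem permInt_apply {S : Type} [MulAction Γ S] (g : Γ) (f : S → ℤ) (s : S) :
    permInt Γ S g f s = f (g⁻¹ • s) :=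
  rfl

/-- The representation `X ⊗ k[S]`, realised on functions `S → X`:
`(g • f) s = ρ g (f (g⁻¹ • s))`. -/
def permRep (ρ : Representation k Γ X) (S : Type) [MulAction Γ S] :
    Representation k Γ (S → X) where
  toFun g :=
    { toFun := fun f s => ρ g (f (g⁻¹ • s))
      map_add' := fun f f' => by
        ext s
        simp
      map_smul' := fun c f => by
        ext s
        simp }
  map_one' := by
    ext f s
    simp
  map_mul' g h := by
    ext f s
    simp [mul_smul]

@[simp]
theorem permRep_apply (ρ : Representation k Γ X) {S : Type} [MulAction Γ S] (g : Γ)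
    (f : S → X) (s : S) : permRep ρ S g f s = ρ g (f (g⁻¹ • s)) :=
  rfl

/-- The mark (number of fixed points) of `g` on the `Γ`-set `S`. -/
noncomputable def mark (Γ S : Type) [Group Γ] [MulAction Γ S] (g : Γ) : ℤ :=
  (Nat.card (MulAction.fixedBy S g) : ℤ)

theorem mark_eq_sum {S : Type} [MulAction Γ S] [Fintype S] [DecidableEq S] (g : Γ) :
    mark Γ S g = ∑ s : S, if g⁻¹ • s = s then (1 : ℤ) else 0 := by
  rw [mark, Finset.sum_boole]
  congr 1
  rw [← Fintype.card_subtype, ← Nat.card_eq_fintype_card]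
  apply Nat.card_congr
  refine Equiv.subtypeEquivRight (fun s => ?_)
  rw [MulAction.mem_fixedBy, inv_smul_eq_iff]
  exact eq_comm

theorem trace_permInt {S : Type} [MulAction Γ S] [Finite S] (g : Γ) :
    LinearMap.trace ℤ (S → ℤ) (permInt Γ S g) = mark Γ S g := by
  classical
  have := Fintype.ofFinite S
  rw [LinearMap.trace_eq_matrix_trace ℤ (Pi.basisFun ℤ S), LinearMap.toMatrix_eq_toMatrix',
    Matrix.trace, mark_eq_sum]
  refine Finset.sum_congr rfl (fun s _ => ?_)
  rw [Matrix.diag_apply, LinearMap.toMatrix'_apply, permInt_apply, Pi.single_apply]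

open Classical in
/-- Evaluation at the classes of the basis vectors. -/
noncomputable def evalBasis (k : Type) [Field k] (X : Type) [AddCommGroup X] [Module k X]
    (p : ℕ) (S : Type) : (Red p (S → ℤ) →ₗ[ℤ] X) →ₗ[k] (S → X) where
  toFun h s := h (Submodule.Quotient.mk (Pi.single s 1))
  map_add' _ _ := rfl
  map_smul' _ _ := rfl

open Classical in
theorem evalBasis_apply (p : ℕ) (S : Type) (h : Red p (S → ℤ) →ₗ[ℤ] X) (s : S) :
    evalBasis k X p S h s = h (Submodule.Quotient.mk (Pi.single s 1)) :=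
  rfl

theorem evalBasis_bijective (p : ℕ) [CharP k p] (S : Type) [Finite S] :
    Function.Bijective (evalBasis k X p S) := by
  classical
  have := Fintype.ofFinite S
  constructor
  · intro h h' hh
    have key : h ∘ₗ (pSub p (S → ℤ)).mkQ = h' ∘ₗ (pSub p (S → ℤ)).mkQ := by
      apply LinearMap.pi_ext'
      intro s
      apply LinearMap.ext_ring
      have := congrFun hh s
      simpa [evalBasis_apply] using this
    apply LinearMap.ext
    intro x
    obtain ⟨f, rfl⟩ := Submodule.Quotient.mk_surjective _ x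
    exact LinearMap.congr_fun key f
  · intro φ
    have hker : pSub p (S → ℤ) ≤ LinearMap.ker (Fintype.linearCombination ℤ φ) := by
      intro f hf
      obtain ⟨f', rfl⟩ := mem_pSub.mp hf
      rw [LinearMap.mem_ker, map_nsmul]
      rw [← Nat.cast_smul_eq_nsmul k, CharP.cast_eq_zero, zero_smul]
    refine ⟨(pSub p (S → ℤ)).liftQ (Fintype.linearCombination ℤ φ) hker, ?_⟩
    ext s
    rw [evalBasis_apply]
    simp [Fintype.linearCombination_apply, Pi.single_apply]

theorem evalBasis_equivariant (ρ : Representation k Γ X) (p : ℕ) (S : Type) [MulAction Γ S]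
    (g : Γ) (h : Red p (S → ℤ) →ₗ[ℤ] X) :
    evalBasis k X p S (homRep ρ (redRep p (permInt Γ S)) g h) =
      permRep ρ S g (evalBasis k X p S h) := by
  classical
  ext s
  rw [evalBasis_apply, homRep_apply, redRep_mk, permRep_apply, evalBasis_apply]
  congr 3
  ext t
  rw [permInt_apply, inv_inv, Pi.single_apply, Pi.single_apply]
  simp [smul_eq_iff_eq_inv_smul]

/-- **Equal marks give equal values.** -/
theorem perm_eq_of_mark_eq {F : RepFun k Γ} (hF : IsAdditiveK F) [Finite Γ] (p : ℕ)
    [Fact p.Prime] [CharP k p] [FiniteDimensional k X] (ρ : Representation k Γ X)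
    (S T : Type) [MulAction Γ S] [MulAction Γ T] [Finite S] [Finite T]
    (h : ∀ g, mark Γ S g = mark Γ T g) :
    F (S → X) (permRep ρ S) = F (T → X) (permRep ρ T) := by
  have e : ∀ (S : Type) [MulAction Γ S] [Finite S], F (S → X) (permRep ρ S) =
      homFun F ρ (Red p (S → ℤ)) (redRep p (permInt Γ S)) := fun S _ _ =>
    (hF.eq_of_bijective _ _ (evalBasis k X p S) (evalBasis_bijective p S)
      (evalBasis_equivariant ρ p S)).symm
  rw [e S, e T]
  exact (homFun_isAdditive hF p ρ).red_eq_of_trace_eq _ _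
    (fun g => by rw [trace_permInt, trace_permInt, h])

end Perm

/-! ## Disjoint unions of `Γ`-sets -/

section Sum

variable {k Γ : Type} [Field k] [Group Γ] {X : Type} [AddCommGroup X] [Module k X]

theorem mark_sum (S T : Type) [MulAction Γ S] [MulAction Γ T] [Finite S] [Finite T] (g : Γ) :
    mark Γ (S ⊕ T) g = mark Γ S g + mark Γ T g := by
  classical
  have := Fintype.ofFinite S
  have := Fintype.ofFinite T
  rw [mark_eq_sum, mark_eq_sum, mark_eq_sum, Fintype.sum_sum_type]
  simp

theorem perm_sum {F : RepFun k Γ} (hF : IsAdditiveK F) [FiniteDimensional k X]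
    (ρ : Representation k Γ X) (S T : Type) [MulAction Γ S] [MulAction Γ T] [Finite S]
    [Finite T] :
    F (S ⊕ T → X) (permRep ρ (S ⊕ T)) = F (S → X) (permRep ρ S) + F (T → X) (permRep ρ T) := by
  let i : (S → X) →ₗ[k] (S ⊕ T → X) :=
    { toFun := fun f => Sum.elim f 0
      map_add' := fun f f' => by
        ext (s | t) <;> simp
      map_smul' := fun c f => by
        ext (s | t) <;> simp }
  refine hF (S → X) (S ⊕ T → X) (T → X) _ _ _ i (LinearMap.funLeft k X Sum.inr) inferInstance
    ?_ ?_ ?_ ?_ ?_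
  · intro f f' h
    ext s
    exact congrFun h (Sum.inl s)
  · intro h
    exact ⟨Sum.elim 0 h, by ext t; simp⟩
  · intro f
    constructor
    · intro h
      refine ⟨f ∘ Sum.inl, ?_⟩
      ext (s | t)
      · rfl
      · exact (congrFun h t).symm
    · rintro ⟨f', rfl⟩
      ext t
      rfl
  · intro g f
    ext (s | t)
    · rfl
    · change (0 : X) = ρ g 0
      rw [map_zero]
  · intro g f
    ext t
    rfl

end Sum

/-! ## Relations between marks -/

section Rel

variable {k Γ : Type} [Field k] [Group Γ] {X : Type} [AddCommGroup X] [Module k X]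

/-- `Rel F ρ θ z`: the function `θ` on `Γ` is the difference of the marks of two finite `Γ`-sets
`S`, `T`, and `z = F (X^S) - F (X^T)`. -/
def Rel (F : RepFun k Γ) (ρ : Representation k Γ X) (θ : Γ → ℤ) (z : ℤ) : Prop :=
  ∃ (S T : Type) (_ : MulAction Γ S) (_ : MulAction Γ T) (_ : Finite S) (_ : Finite T),
    (∀ g, mark Γ S g - mark Γ T g = θ g) ∧
      F (S → X) (permRep ρ S) - F (T → X) (permRep ρ T) = z

variable {F : RepFun k Γ} {ρ : Representation k Γ X}

theorem Rel.add (hF : IsAdditiveK F) [FiniteDimensional k X] {θ θ' : Γ → ℤ} {z z' : ℤ}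
    (h : Rel F ρ θ z) (h' : Rel F ρ θ' z') : Rel F ρ (θ + θ') (z + z') := by
  obtain ⟨S, T, _, _, _, _, hm, hz⟩ := h
  obtain ⟨S', T', _, _, _, _, hm', hz'⟩ := h'
  refine ⟨S ⊕ S', T ⊕ T', inferInstance, inferInstance, inferInstance, inferInstance, ?_, ?_⟩
  · intro g
    rw [mark_sum, mark_sum, Pi.add_apply, ← hm g, ← hm' g]
    ring
  · rw [perm_sum hF, perm_sum hF, ← hz, ← hz']
    ring

theorem Rel.neg {θ : Γ → ℤ} {z : ℤ} (h : Rel F ρ θ z) : Rel F ρ (-θ) (-z) := by
  obtain ⟨S, T, _, _, _, _, hm, hz⟩ := h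
  refine ⟨T, S, inferInstance, inferInstance, inferInstance, inferInstance, ?_, ?_⟩
  · intro g
    rw [Pi.neg_apply, ← hm g]
    ring
  · rw [← hz]
    ring

theorem Rel.of_set (hF : IsAdditiveK F) [FiniteDimensional k X] (S : Type) [MulAction Γ S]
    [Finite S] : Rel F ρ (mark Γ S) (F (S → X) (permRep ρ S)) := by
  refine ⟨S ⊕ S, S, inferInstance, inferInstance, inferInstance, inferInstance, ?_, ?_⟩
  · intro g
    rw [mark_sum]
    ring
  · rw [perm_sum hF]
    ring

theorem Rel.zero (hF : IsAdditiveK F) [FiniteDimensional k X] : Rel F ρ 0 0 := by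
  have h := Rel.of_set (ρ := ρ) hF (Γ ⧸ (⊤ : Subgroup Γ))
  have h2 := Rel.add hF h h.neg
  rwa [add_neg_cancel, add_neg_cancel] at h2

theorem Rel.unique (hF : IsAdditiveK F) [Finite Γ] (p : ℕ) [Fact p.Prime] [CharP k p]
    [FiniteDimensional k X] {θ : Γ → ℤ} {z z' : ℤ} (h : Rel F ρ θ z) (h' : Rel F ρ θ z') :
    z = z' := by
  obtain ⟨S, T, _, _, _, _, hm, hz⟩ := h
  obtain ⟨S', T', _, _, _, _, hm', hz'⟩ := h'
  have key := perm_eq_of_mark_eq hF p ρ (S ⊕ T') (S' ⊕ T) (fun g => by
    rw [mark_sum, mark_sum]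
    have h1 := hm g
    have h2 := hm' g
    linarith)
  rw [perm_sum hF, perm_sum hF] at key
  linarith

theorem Rel.sum (hF : IsAdditiveK F) [FiniteDimensional k X] {ι : Type} (s : Finset ι)
    (θ : ι → Γ → ℤ) (z : ι → ℤ) (h : ∀ i ∈ s, Rel F ρ (θ i) (z i)) :
    Rel F ρ (∑ i ∈ s, θ i) (∑ i ∈ s, z i) := by
  classical
  induction s using Finset.induction_on with
  | empty =>
    rw [Finset.sum_empty, Finset.sum_empty]
    exact Rel.zero hF
  | insert a s ha ih =>
    rw [Finset.sum_insert ha, Finset.sum_insert ha]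
    exact Rel.add hF (h a (Finset.mem_insert_self a s))
      (ih (fun i hi => h i (Finset.mem_insert_of_mem hi)))

theorem Rel.nsmul (hF : IsAdditiveK F) [FiniteDimensional k X] {θ : Γ → ℤ} {z : ℤ}
    (h : Rel F ρ θ z) (n : ℕ) : Rel F ρ (n • θ) (n • z) := by
  induction n with
  | zero =>
    rw [zero_smul, zero_smul]
    exact Rel.zero hF
  | succ n ih =>
    rw [succ_nsmul, succ_nsmul]
    exact Rel.add hF ih h

end Rel

/-! ## Artin's relation -/

section Artin

variable {Γ : Type} [Group Γ] [Fintype Γ]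

open Classical in
/-- The number of `x` with `⟨x⁻¹ g x⟩ = B`. -/
noncomputable def eFun (B : Subgroup Γ) (g : Γ) : ℤ :=
  ∑ x : Γ, if Subgroup.zpowers (x⁻¹ * g * x) = B then 1 else 0

open Classical in
/-- The number of `x` with `x⁻¹ g x ∈ B`. -/
noncomputable def piFun (B : Subgroup Γ) (g : Γ) : ℤ :=
  ∑ x : Γ, if x⁻¹ * g * x ∈ B then 1 else 0

theorem eFun_eq_zero (B : Subgroup Γ) (hB : ¬ IsCyclic B) (g : Γ) : eFun B g = 0 := by
  classical
  rw [eFun]
  refine Finset.sum_eq_zero (fun x _ => ?_)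
  rw [if_neg]
  rintro rfl
  exact hB inferInstance

theorem sum_eFun [Fintype (Subgroup Γ)] (g : Γ) :
    ∑ B : Subgroup Γ, eFun B g = (Fintype.card Γ : ℤ) := by
  classical
  simp only [eFun]
  rw [Finset.sum_comm]
  simp

open Classical in
theorem piFun_eq_sum [Fintype (Subgroup Γ)] (B : Subgroup Γ) (g : Γ) :
    piFun B g = ∑ B' ∈ Finset.univ.filter (fun B' : Subgroup Γ => B' ≤ B), eFun B' g := by
  classical
  simp only [eFun, piFun]
  rw [Finset.sum_comm]
  refine Finset.sum_congr rfl (fun x _ => ?_)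
  rw [Finset.sum_ite_eq]
  simp [Subgroup.zpowers_le]

open Classical in
theorem eFun_eq_sub [Fintype (Subgroup Γ)] (B : Subgroup Γ) :
    eFun B = piFun B - ∑ B' ∈ Finset.univ.filter (fun B' : Subgroup Γ => B' < B), eFun B' := by
  classical
  ext g
  have h : Finset.univ.filter (fun B' : Subgroup Γ => B' ≤ B) =
      insert B (Finset.univ.filter (fun B' : Subgroup Γ => B' < B)) := by
    ext B'
    simp only [Finset.mem_filter, Finset.mem_univ, true_and, Finset.mem_insert]
    rw [le_iff_eq_or_lt]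
  rw [Pi.sub_apply, piFun_eq_sum, h, Finset.sum_insert (by simp), Finset.sum_apply]
  ring

theorem piFun_eq_mark (B : Subgroup Γ) (g : Γ) :
    piFun B g = (Nat.card B : ℤ) * mark Γ (Γ ⧸ B) g := by
  classical
  have h1 : piFun B g = (Nat.card {x : Γ // x⁻¹ * g * x ∈ B} : ℤ) := by
    rw [piFun, Finset.sum_boole, Nat.card_eq_fintype_card, Fintype.card_subtype]
  have h2 : {x : Γ | x⁻¹ * g * x ∈ B} =
      (QuotientGroup.mk : Γ → Γ ⧸ B) ⁻¹' (MulAction.fixedBy (Γ ⧸ B) g) := by
    ext x
    change x⁻¹ * g * x ∈ B ↔ g • (QuotientGroup.mk x : Γ ⧸ B) = QuotientGroup.mk x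
    rw [MulAction.Quotient.smul_mk, QuotientGroup.eq, smul_eq_mul, mul_inv_rev,
      ← Subgroup.inv_mem_iff]
    simp [mul_assoc]
  have h3 := QuotientGroup.card_preimage_mk B (MulAction.fixedBy (Γ ⧸ B) g)
  rw [← h2] at h3
  rw [h1, mark]
  exact_mod_cast h3

end Artin

/-! ## The induction theorem -/

section Final

variable {k Γ : Type} [Field k] [Group Γ] [Finite Γ] {X : Type} [AddCommGroup X] [Module k X]

/-- **Modular Artin induction, additive-function form.**  Let `F` be an additive function on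
finite-dimensional `k`-linear representations of the finite group `Γ`, `char k = p`, and let `X`
be such a representation.  If `F` vanishes on `X ⊗ k[Γ/C]` (functions `Γ ⧸ C → X` with the
diagonal action) for every cyclic subgroup `C` of `Γ`, then `F X = 0`. -/
theorem eq_zero_of_cyclic {p : ℕ} [Fact p.Prime] [CharP k p] (F : RepFun k Γ)
    (hF : IsAdditiveK F) [FiniteDimensional k X] (ρ : Representation k Γ X)
    (hcyc : ∀ C : Subgroup Γ, IsCyclic C → F (Γ ⧸ C → X) (permRep ρ (Γ ⧸ C)) = 0) :
    F X ρ = 0 := by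
  classical
  have := Fintype.ofFinite Γ
  have := Fintype.ofFinite (Subgroup Γ)
  have hpi : ∀ B : Subgroup Γ, IsCyclic B → Rel F ρ (piFun B) 0 := by
    intro B hB
    have h1 := (Rel.of_set (ρ := ρ) hF (Γ ⧸ B)).nsmul hF (Nat.card B)
    rw [hcyc B hB, smul_zero] at h1
    have h2 : Nat.card B • mark Γ (Γ ⧸ B) = piFun B := by
      ext g
      rw [piFun_eq_mark, Pi.smul_apply, nsmul_eq_mul]
    rwa [h2] at h1
  have he : ∀ B : Subgroup Γ, IsCyclic B → Rel F ρ (eFun B) 0 := by
    intro B
    induction B using WellFoundedLT.induction with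
    | ind B ih =>
      intro hB
      rw [eFun_eq_sub B]
      have h1 : Rel F ρ (∑ B' ∈ Finset.univ.filter (fun B' : Subgroup Γ => B' < B), eFun B')
          (∑ B' ∈ Finset.univ.filter (fun B' : Subgroup Γ => B' < B), (0 : ℤ)) :=
        Rel.sum hF _ _ _ (fun B' hB' => ih B' (Finset.mem_filter.mp hB').2
          (Subgroup.isCyclic_of_le (Finset.mem_filter.mp hB').2.le))
      rw [Finset.sum_const_zero] at h1
      have h2 := Rel.add hF (hpi B hB) h1.neg
      rwa [neg_zero, add_zero, ← sub_eq_add_neg] at h2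
  have hall : Rel F ρ (fun _ => (Fintype.card Γ : ℤ)) 0 := by
    have h1 : Rel F ρ (∑ B ∈ (Finset.univ : Finset (Subgroup Γ)), eFun B)
        (∑ B ∈ (Finset.univ : Finset (Subgroup Γ)), (0 : ℤ)) :=
      Rel.sum hF _ _ _ (fun B _ => by
        by_cases hB : IsCyclic B
        · exact he B hB
        · have h0 : eFun B = 0 := funext (eFun_eq_zero B hB)
          rw [h0]
          exact Rel.zero hF)
    rw [Finset.sum_const_zero] at h1
    have h2 : (∑ B ∈ (Finset.univ : Finset (Subgroup Γ)), eFun B) =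
        fun _ => (Fintype.card Γ : ℤ) := by
      ext g
      rw [Finset.sum_apply, sum_eFun]
    rwa [h2] at h1
  have hsub : Subsingleton (Γ ⧸ (⊤ : Subgroup Γ)) := QuotientGroup.subsingleton_quotient_top
  have hpt := (Rel.of_set (ρ := ρ) hF (Γ ⧸ (⊤ : Subgroup Γ))).nsmul hF (Fintype.card Γ)
  have hmark : Fintype.card Γ • mark Γ (Γ ⧸ (⊤ : Subgroup Γ)) =
      fun _ => (Fintype.card Γ : ℤ) := by
    ext g
    have h1 : Nat.card (MulAction.fixedBy (Γ ⧸ (⊤ : Subgroup Γ)) g) = 1 := by
      rw [Nat.card_eq_one_iff_unique]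
      exact ⟨⟨fun a b => Subtype.ext (Subsingleton.elim _ _)⟩,
        ⟨⟨QuotientGroup.mk 1, Subsingleton.elim _ _⟩⟩⟩
    rw [Pi.smul_apply, mark, h1, nsmul_eq_mul, Nat.cast_one, mul_one]
  rw [hmark] at hpt
  have h0 := Rel.unique hF p hpt hall
  have hapt : F (Γ ⧸ (⊤ : Subgroup Γ) → X) (permRep ρ (Γ ⧸ (⊤ : Subgroup Γ))) = 0 := by
    rcases smul_eq_zero.mp h0 with h | h
    · exact absurd h Fintype.card_ne_zero
    · exact h
  rw [← hapt]
  refine hF.eq_of_bijective ρ _ (LinearMap.pi (fun _ => LinearMap.id)) ⟨?_, ?_⟩ ?_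
  · intro x y h
    exact congrFun h (QuotientGroup.mk 1)
  · intro f
    refine ⟨f (QuotientGroup.mk 1), ?_⟩
    ext s
    rw [Subsingleton.elim s (QuotientGroup.mk 1)]
    rfl
  · intro g x
    ext s
    rfl

end Final

end Fermat.Agent.Lib.RepInd
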